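import Mathlib
import Fermat.Prelude.Def_ModularCurve_ReductionModL
import Fermat.Prelude.Def_AlgebraicCurve_Repartitions
import Fermat.Prelude.Def_FLTPrelim_Ramification

/-!
# P-ES / ES-D (reduction theory): interfaces, wave 1

Target row: S18 (injectivity of reduction on prime-to-`ℓ` torsion of `J₀(N)`), and the reduction
package needed by ES-E (S37).  Everything here is a `Prop`-valued definition; provers land
`theorem foo : <Statement>` in their own directory.

Notation: `L = ℚ̄`, `F_L = modularFunctionFieldBar N ⊆ L((q))`, `A` a valuation subring of `L`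
over `ℓ`, `k` its residue field, `F_k = modularFunctionFieldFullC k N ⊆ k((q))`.
-/

set_option autoImplicit false
set_option synthInstance.maxHeartbeats 400000

open AlgebraicCurve ModularCurve

namespace Fermat.Agent.H27.ESD

noncomputable section

/-- **Riemann package** for a function field `F/K` (in practice `K` algebraically closed):
all places have degree one, principal divisors exist and have degree `0`, the only functions
without poles are the constants, the Riemann-Roch spaces are finite dimensional,
`ℓ(D) ≥ deg D + 1 - g` always, with equality as soon as `deg D ≥ c`. -/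
structure RiemannPackage (K F : Type*) [Field K] [Field F] [Algebra K F] (g : ℕ) : Prop where
  deg_one : ∀ v : Place K F, v.deg = 1
  infinite_places : Infinite (Place K F)
  principal : HasPrincipalDivisors K F
  finite : ∀ D : Divisor K F, Module.Finite K (riemannRochSpace D)
  finrank_zero : Module.finrank K (riemannRochSpace (0 : Divisor K F)) = 1
  riemann : ∀ D : Divisor K F,
    Divisor.degree D + 1 - (g : ℤ) ≤ (Module.finrank K (riemannRochSpace D) : ℤ)
  eq_of_large : ∃ c : ℤ, ∀ D : Divisor K F, c ≤ Divisor.degree D →
    (Module.finrank K (riemannRochSpace D) : ℤ) = Divisor.degree D + 1 - (g : ℤ)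

/-- **D-A1 (Riemann's theorem, any characteristic).**  `K` algebraically closed, `x ∈ F`
transcendental over `K`, `F / K(x)` finite and separable. -/
def RiemannTheoremStatement : Prop :=
  ∀ (K F : Type) [Field K] [Field F] [Algebra K F] [IsAlgClosed K] (x : F),
    Transcendental K x →
    FiniteDimensional (IntermediateField.adjoin K {x}) F →
    Algebra.IsSeparable (IntermediateField.adjoin K {x}) F →
    ∃ g : ℕ, RiemannPackage K F g

/-- ramification index of the place `v` with respect to the function `y`:
`-ord_v y` at the poles of `y`, and `ord_v (y - y(v))` elsewhere (as a supremum over all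
constants `c`, only `c = y(v)` contributes). -/
def ramIdx {K F : Type*} [Field K] [Field F] [Algebra K F] (y : F) (v : Place K F) : ℕ :=
  if v.ord y < 0 then (-(v.ord y)).toNat
  else ⨆ c : K, (v.ord (y - algebraMap K F c)).toNat

/-- **D-A4 (Riemann-Hurwitz for the Riemann genus, any characteristic).**
For `F / K(y)` finite separable of degree `n`:  `Σ_v (e_v - 1) ≤ 2g - 2 + 2n`, with equality
when all ramification is tame.  (Dedekind-Weber: `2g - 2 + 2n` is the total degree of the
different, and the different exponent is `≥ e - 1` with equality iff tame.) -/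
def HurwitzStatement : Prop :=
  ∀ (K F : Type) [Field K] [Field F] [Algebra K F] [IsAlgClosed K] (y : F),
    Transcendental K y →
    FiniteDimensional (IntermediateField.adjoin K {y}) F →
    Algebra.IsSeparable (IntermediateField.adjoin K {y}) F →
    ∀ g : ℕ, RiemannPackage K F g →
      {v : Place K F | 1 < ramIdx y v}.Finite ∧
      (∑ᶠ v : Place K F, ((ramIdx y v : ℤ) - 1)) ≤
        2 * (g : ℤ) - 2 + 2 * (Module.finrank (IntermediateField.adjoin K {y}) F : ℤ) ∧
      ((∀ v : Place K F, ((ramIdx y v : ℕ) : K) ≠ 0) →
        (∑ᶠ v : Place K F, ((ramIdx y v : ℤ) - 1)) =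
          2 * (g : ℤ) - 2 + 2 * (Module.finrank (IntermediateField.adjoin K {y}) F : ℤ))

/-- **D-A2 (characteristic 0 instance).** -/
def RiemannBarStatement : Prop :=
  ∀ (N : ℕ) [NeZero N], ∃ g : ℕ,
    RiemannPackage (AlgebraicClosure ℚ) ↥(modularFunctionFieldBar N) g

/-- **D-A3 (characteristic `ℓ` instance).**  (`k` is algebraically closed; `F_k / k(j̄)` is finite
of degree `ψ(N)` by P-IGUSA and separable because the place `q = 0` is unramified of degree 1.) -/
def RiemannModLStatement : Prop :=
  ∀ (N : ℕ) [NeZero N] (ℓ : ℕ) [Fact ℓ.Prime], ¬ ℓ ∣ N →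
    ∀ (A : ValuationSubring (AlgebraicClosure ℚ)), A.LiesOverPrime ℓ →
      ∃ g : ℕ, RiemannPackage (IsLocalRing.ResidueField A)
        ↥(modularFunctionFieldFullC (IsLocalRing.ResidueField A) N) g

/-- **D-GENUS (good reduction, numerical form).**  The Riemann genus does not drop under
reduction.  (The inequality `g_k ≤ g_L` is the easy semicontinuity; this is Igusa's theorem.)
`hin` is allowed as a hypothesis in the version needed for S18. -/
def GenusEqStatement : Prop :=
  ∀ (N : ℕ) [NeZero N] (ℓ : ℕ) [Fact ℓ.Prime], ¬ ℓ ∣ N →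
    ∀ (A : ValuationSubring (AlgebraicClosure ℚ)), A.LiesOverPrime ℓ →
      ModularCurve.ReductionInputsModL A N →
      ∀ gL gk : ℕ,
        RiemannPackage (AlgebraicClosure ℚ) ↥(modularFunctionFieldBar N) gL →
        RiemannPackage (IsLocalRing.ResidueField A)
          ↥(modularFunctionFieldFullC (IsLocalRing.ResidueField A) N) gk →
        gL ≤ gk

/-- **D-CORE (leading-term argument).**  S18 for a pair `(N, A)` for which both function fields
have Riemann packages and `g_L ≤ g_k`. -/
def S18CoreStatement : Prop :=
  ∀ (N : ℕ) [NeZero N] (ℓ : ℕ) [Fact ℓ.Prime], ¬ ℓ ∣ N →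
    ∀ (A : ValuationSubring (AlgebraicClosure ℚ)), A.LiesOverPrime ℓ →
      ∀ (h : ModularCurve.ReductionInputsModL A N) (gL gk : ℕ),
        RiemannPackage (AlgebraicClosure ℚ) ↥(modularFunctionFieldBar N) gL →
        RiemannPackage (IsLocalRing.ResidueField A)
          ↥(modularFunctionFieldFullC (IsLocalRing.ResidueField A) N) gk →
        gL ≤ gk →
        ∀ (m : ℕ), ¬ ℓ ∣ m → ∀ z : ModularCurve.JZero N, m • z = 0 →
          ModularCurve.reductionModL A N z = 0 → z = 0

/-- Assembly of S18 from the four blocks. -/
theorem s18_of (hL : RiemannBarStatement) (hk : RiemannModLStatement)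
    (hg : GenusEqStatement) (hc : S18CoreStatement)
    (N : ℕ) [NeZero N] {ℓ : ℕ} [Fact ℓ.Prime] (hℓN : ¬ ℓ ∣ N)
    (A : ValuationSubring (AlgebraicClosure ℚ)) (hA : A.LiesOverPrime ℓ)
    (h : ModularCurve.ReductionInputsModL A N) (m : ℕ) (hm : ¬ ℓ ∣ m)
    (z : ModularCurve.JZero N) (hmz : m • z = 0)
    (hz : ModularCurve.reductionModL A N z = 0) : z = 0 := by
  obtain ⟨gL, hgL⟩ := hL N
  obtain ⟨gk, hgk⟩ := hk N ℓ hℓN A hA
  exact hc N ℓ hℓN A hA h gL gk hgL hgk (hg N ℓ hℓN A hA h gL gk hgL hgk) m hm z hmz hz

end

end Fermat.Agent.H27.ESD
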