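import Fermat.Agent.H27.ESD.Interfaces1c

/-!
# P-ES / ES-D interfaces, wave 2: tame pairs, level change, final assembly of S18

Architecture v2 (helper9 #283, helper96 #279): reduction theory is needed only at TAME pairs
`(N, ℓ)`: `ℓ ≥ 5`, or `ℓ = 3` and `2 ∣ N`, or `ℓ = 2` and `3 ∣ N`.  A wild pair `(N, ℓ)` is
handled by pulling back to the tame level `M * N` (`M = 3` for `ℓ = 2`, `M = 2` for `ℓ = 3`),
whose degree `M + 1` over level `N` is a power of `ℓ`.
-/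

set_option autoImplicit false
set_option synthInstance.maxHeartbeats 400000

open AlgebraicCurve ModularCurve

namespace Fermat.Agent.H27.ESD

noncomputable section

/-- tame pairs `(N, ℓ)` -/
def TamePair (N ℓ : ℕ) : Prop := 5 ≤ ℓ ∨ (ℓ = 3 ∧ 2 ∣ N) ∨ (ℓ = 2 ∧ 3 ∣ N)

/-- the conclusion of S18 at level `N` for the valuation ring `A` (for the reduction map chosen
by the prelude, which is `0` unless `ReductionInputsModL A N` holds) -/
def S18At (N ℓ : ℕ) (A : ValuationSubring (AlgebraicClosure ℚ)) : Prop :=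
  ∀ (m : ℕ), ¬ ℓ ∣ m → ∀ z : ModularCurve.JZero N, m • z = 0 →
    ModularCurve.reductionModL A N z = 0 → z = 0

/-- **ES-D-TG (official): genus inequality at tame pairs, `h` allowed.** -/
def GenusFFTameStatement : Prop :=
  ∀ (N : ℕ) [NeZero N] (ℓ : ℕ) [Fact ℓ.Prime], ¬ ℓ ∣ N → TamePair N ℓ →
    ∀ (A : ValuationSubring (AlgebraicClosure ℚ)), A.LiesOverPrime ℓ →
      ModularCurve.ReductionInputsModL A N →
      Fermat.Agent.H58.RRHyp (IsLocalRing.ResidueField A)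
        ↥(modularFunctionFieldFullC (IsLocalRing.ResidueField A) N) →
      genusFF (AlgebraicClosure ℚ) ↥(modularFunctionFieldBar N) ≤
        genusFF (IsLocalRing.ResidueField A)
          ↥(modularFunctionFieldFullC (IsLocalRing.ResidueField A) N)

/-- S18 at tame pairs. -/
def S18TameStatement : Prop :=
  ∀ (N : ℕ) [NeZero N] (ℓ : ℕ) [Fact ℓ.Prime], ¬ ℓ ∣ N → TamePair N ℓ →
    ∀ (A : ValuationSubring (AlgebraicClosure ℚ)), A.LiesOverPrime ℓ →
      ModularCurve.ReductionInputsModL A N → S18At N ℓ A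

theorem s18Tame_of (hk : RRModLStatement) (hg : GenusFFTameStatement)
    (hc : S18CoreFFStatement) : S18TameStatement := by
  intro N _ ℓ _ hℓN ht A hA h m hm z hmz hz
  obtain ⟨hac, hrr⟩ := hk N ℓ hℓN A hA
  exact hc N ℓ hℓN A hA h hac hrr (hg N ℓ hℓN ht A hA h hrr) m hm z hmz hz

/-- **ES-D-EX (official): existence of a place reduction at tame pairs** (construction:
normality of the special fibre of the normal model over the `x`-line, `x = j, t₂, t₃`;
`r₀(P)` := centre of `P`). -/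
def ExistsReductionTameStatement : Prop :=
  ∀ (N : ℕ) [NeZero N] (ℓ : ℕ) [Fact ℓ.Prime], ¬ ℓ ∣ N → TamePair N ℓ →
    ∀ (A : ValuationSubring (AlgebraicClosure ℚ)), A.LiesOverPrime ℓ →
      ModularCurve.ReductionInputsModL A N

/-- **ES-D-LC (official): level change.**  `(M, ℓ) = (3, 2)` or `(2, 3)`, `M ∤ N`, `ℓ ∤ N`:
S18 at level `M * N` (where reduction inputs exist) implies S18 at level `N`. -/
def LevelChangeStatement : Prop :=
  ∀ (N : ℕ) [NeZero N] (M ℓ : ℕ) [Fact ℓ.Prime] [NeZero (M * N)],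
    ((M = 3 ∧ ℓ = 2) ∨ (M = 2 ∧ ℓ = 3)) → ¬ M ∣ N → ¬ ℓ ∣ N →
    ∀ (A : ValuationSubring (AlgebraicClosure ℚ)), A.LiesOverPrime ℓ →
      ModularCurve.ReductionInputsModL A (M * N) → S18At (M * N) ℓ A →
      ModularCurve.ReductionInputsModL A N → S18At N ℓ A

theorem tamePair_or_wild (N ℓ : ℕ) (hℓ : ℓ.Prime) :
    TamePair N ℓ ∨ (ℓ = 2 ∧ ¬ 3 ∣ N) ∨ (ℓ = 3 ∧ ¬ 2 ∣ N) := by
  by_cases h5 : 5 ≤ ℓ
  · exact Or.inl (Or.inl h5)
  have h2 := hℓ.two_le
  have hne4 : ℓ ≠ 4 := by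
    rintro rfl
    exact absurd hℓ (by decide)
  have : ℓ = 2 ∨ ℓ = 3 := by omega
  rcases this with rfl | rfl
  · by_cases h3 : 3 ∣ N
    · exact Or.inl (Or.inr (Or.inr ⟨rfl, h3⟩))
    · exact Or.inr (Or.inl ⟨rfl, h3⟩)
  · by_cases h3 : 2 ∣ N
    · exact Or.inl (Or.inr (Or.inl ⟨rfl, h3⟩))
    · exact Or.inr (Or.inr ⟨rfl, h3⟩)

/-- **Final assembly of S18 (frozen shape)** from: S18 at tame pairs, existence of reduction
inputs at tame pairs, level change. -/
theorem s18_of_tame (hT : S18TameStatement) (hE : ExistsReductionTameStatement)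
    (hL : LevelChangeStatement)
    (N : ℕ) [NeZero N] {ℓ : ℕ} [Fact ℓ.Prime] (hℓN : ¬ ℓ ∣ N)
    (A : ValuationSubring (AlgebraicClosure ℚ)) (hA : A.LiesOverPrime ℓ)
    (h : ModularCurve.ReductionInputsModL A N) (m : ℕ) (hm : ¬ ℓ ∣ m)
    (z : ModularCurve.JZero N) (hmz : m • z = 0)
    (hz : ModularCurve.reductionModL A N z = 0) : z = 0 := by
  have hℓ : ℓ.Prime := Fact.out
  rcases tamePair_or_wild N ℓ hℓ with ht | ⟨h2, h3⟩ | ⟨h3, h2⟩
  · exact hT N ℓ hℓN ht A hA h m hm z hmz hz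
  · -- ℓ = 2, 3 ∤ N : level 3 N
    have : NeZero (3 * N) := ⟨Nat.mul_ne_zero (by norm_num) (NeZero.ne N)⟩
    have hℓN' : ¬ ℓ ∣ 3 * N := by
      intro hd
      rcases (Nat.Prime.dvd_mul hℓ).mp hd with hd | hd
      · subst h2; exact absurd hd (by decide)
      · exact hℓN hd
    have ht' : TamePair (3 * N) ℓ := Or.inr (Or.inr ⟨h2, dvd_mul_right 3 N⟩)
    have h' := hE (3 * N) ℓ hℓN' ht' A hA
    exact hL N 3 ℓ (Or.inl ⟨rfl, h2⟩) h3 hℓN A hA h' (hT (3 * N) ℓ hℓN' ht' A hA h')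
      h m hm z hmz hz
  · -- ℓ = 3, 2 ∤ N : level 2 N
    have : NeZero (2 * N) := ⟨Nat.mul_ne_zero (by norm_num) (NeZero.ne N)⟩
    have hℓN' : ¬ ℓ ∣ 2 * N := by
      intro hd
      rcases (Nat.Prime.dvd_mul hℓ).mp hd with hd | hd
      · subst h3; exact absurd hd (by decide)
      · exact hℓN hd
    have ht' : TamePair (2 * N) ℓ := Or.inr (Or.inl ⟨h3, dvd_mul_right 2 N⟩)
    have h' := hE (2 * N) ℓ hℓN' ht' A hA
    exact hL N 2 ℓ (Or.inr ⟨rfl, h3⟩) h2 hℓN A hA h' (hT (2 * N) ℓ hℓN' ht' A hA h')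
      h m hm z hmz hz

end

end Fermat.Agent.H27.ESD
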