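import Fermat.Agent.H27.ESD.Interfaces

/-!
# P-ES / ES-D interfaces, wave 1b: the two function fields satisfy the hypotheses of
Riemann's theorem; abstract pinch.
-/

set_option autoImplicit false
set_option synthInstance.maxHeartbeats 400000

open AlgebraicCurve ModularCurve

namespace Fermat.Agent.H27.ESD

noncomputable section

/-- **D-A2.**  `F_L = ℚ̄(X₀(N))` is finite separable over `ℚ̄(x)` for a transcendental `x`
(take `x = j`; P-GENUS GEN-16). -/
def FFBarStatement : Prop :=
  ∀ (N : ℕ) [NeZero N], ∃ x : ↥(modularFunctionFieldBar N),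
    Transcendental (AlgebraicClosure ℚ) x ∧
    FiniteDimensional (IntermediateField.adjoin (AlgebraicClosure ℚ) {x})
      ↥(modularFunctionFieldBar N) ∧
    Algebra.IsSeparable (IntermediateField.adjoin (AlgebraicClosure ℚ) {x})
      ↥(modularFunctionFieldBar N)

/-- **D-A3.**  The residue field `k` of `A` is algebraically closed and `F_k` is finite separable
over `k(x)` for a transcendental `x` (take `x = j̄`; finiteness: every `j̄(q^d)` is a root of the
reduced modular polynomial; separability: the place `q = 0` of `F_k` is unramified of degree one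
over `j̄ = ∞`, whereas in an inseparable extension every place is ramified). -/
def FFModLStatement : Prop :=
  ∀ (N : ℕ) [NeZero N] (ℓ : ℕ) [Fact ℓ.Prime], ¬ ℓ ∣ N →
    ∀ (A : ValuationSubring (AlgebraicClosure ℚ)), A.LiesOverPrime ℓ →
      IsAlgClosed (IsLocalRing.ResidueField A) ∧
      ∃ x : ↥(modularFunctionFieldFullC (IsLocalRing.ResidueField A) N),
        Transcendental (IsLocalRing.ResidueField A) x ∧
        FiniteDimensional (IntermediateField.adjoin (IsLocalRing.ResidueField A) {x})
          ↥(modularFunctionFieldFullC (IsLocalRing.ResidueField A) N) ∧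
        Algebra.IsSeparable (IntermediateField.adjoin (IsLocalRing.ResidueField A) {x})
          ↥(modularFunctionFieldFullC (IsLocalRing.ResidueField A) N)

theorem riemannBar_of (h1 : RiemannTheoremStatement) (h2 : FFBarStatement) :
    RiemannBarStatement := by
  intro N _
  obtain ⟨x, hx, hfin, hsep⟩ := h2 N
  exact h1 _ _ x hx hfin hsep

theorem riemannModL_of (h1 : RiemannTheoremStatement) (h3 : FFModLStatement) :
    RiemannModLStatement := by
  intro N _ ℓ _ hℓN A hA
  obtain ⟨hk, x, hx, hfin, hsep⟩ := h3 N ℓ hℓN A hA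
  have := hk
  exact h1 _ _ x hx hfin hsep

/-- **D-PINCH (abstract).**  Two function fields with Riemann packages, a degree-preserving
map `r` on places, functions `y`, `ȳ` of the same degree `n` over the rational subfields, such
that the ramification of `y` is tame and "does not increase in the fibres of `r`":
`Σ_{P ∈ r⁻¹(P̄)} (e_P - 1) ≤ ē_P̄ - 1` for every place `P̄` with nonempty fibre carrying
ramification.  Then `g_L ≤ g_k`.  (Needs `HurwitzStatement` on both sides.) -/
def PinchStatement : Prop :=
  HurwitzStatement →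
  ∀ (K₁ F₁ K₂ F₂ : Type) [Field K₁] [Field F₁] [Algebra K₁ F₁] [IsAlgClosed K₁]
    [Field K₂] [Field F₂] [Algebra K₂ F₂] [IsAlgClosed K₂] (g₁ g₂ : ℕ),
    RiemannPackage K₁ F₁ g₁ → RiemannPackage K₂ F₂ g₂ →
    ∀ (r : Place K₁ F₁ → Place K₂ F₂) (y : F₁) (ybar : F₂),
      Transcendental K₁ y → Transcendental K₂ ybar →
      FiniteDimensional (IntermediateField.adjoin K₁ {y}) F₁ →
      FiniteDimensional (IntermediateField.adjoin K₂ {ybar}) F₂ →
      Algebra.IsSeparable (IntermediateField.adjoin K₁ {y}) F₁ →
      Algebra.IsSeparable (IntermediateField.adjoin K₂ {ybar}) F₂ →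
      Module.finrank (IntermediateField.adjoin K₁ {y}) F₁ =
        Module.finrank (IntermediateField.adjoin K₂ {ybar}) F₂ →
      (∀ v : Place K₁ F₁, ((ramIdx y v : ℕ) : K₁) ≠ 0) →
      (∀ w : Place K₂ F₂, ∀ s : Finset (Place K₁ F₁), (∀ v ∈ s, r v = w) →
        ∑ v ∈ s, ((ramIdx y v : ℤ) - 1) ≤ (ramIdx ybar w : ℤ) - 1) →
      g₁ ≤ g₂

end

end Fermat.Agent.H27.ESD
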