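import Fermat.Agent.H27.ESD.Interfaces1b
import Fermat.Agent.H58.RR.NonSpecial
import Fermat.Agent.H58.RR.Modular

/-!
# P-ES / ES-D interfaces, wave 1c: OFFICIAL TARGETS in terms of helper58's `RRHyp` / `genusFF`

The Riemann theorem of helper58 (`Fermat.Agent.H58.RRHyp`, genus = prelude `genusFF`) is the
standard.  `RiemannPackage` (wave 1) is a consequence (`riemannPackage_of_rrHyp`), so provers
may use either language.  The S18 assembly is `s18_of_ff`.
-/

set_option autoImplicit false
set_option synthInstance.maxHeartbeats 400000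

open AlgebraicCurve ModularCurve

namespace Fermat.Agent.H27.ESD

noncomputable section

open Fermat.Agent.H58 in
/-- adapter: helper58's Riemann theorem gives the wave-1 package, with `g = genusFF`. -/
theorem riemannPackage_of_rrHyp {K F : Type*} [Field K] [Field F] [Algebra K F] [Infinite K]
    (h : RRHyp K F) : RiemannPackage K F (genusFF K F) where
  deg_one := h.deg_one
  infinite_places := h.infinite_place
  principal := h.principal
  finite := h.finite_space
  finrank_zero := by
    have := h.principal
    obtain ⟨v₀⟩ := h.exists_place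
    exact rr_finrank_zero h.deg_one v₀
  riemann := h.riemann_inequality
  eq_of_large := by
    obtain ⟨c, hc⟩ := h.exists_degree_bound
    refine ⟨c, fun D hD => ?_⟩
    have h1 := h.finrank_H1_eq D
    rw [hc D hD] at h1
    push_cast at h1
    omega

/-- the genus of a Riemann package is unique -/
theorem RiemannPackage.genus_unique {K F : Type*} [Field K] [Field F] [Algebra K F]
    {g g' : ℕ} (h : RiemannPackage K F g) (h' : RiemannPackage K F g') : g = g' := by
  obtain ⟨c, hc⟩ := h.eq_of_large
  obtain ⟨c', hc'⟩ := h'.eq_of_large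
  have := h.infinite_places
  obtain ⟨v⟩ : Nonempty (Place K F) := inferInstance
  -- a divisor of large degree
  set n : ℤ := max (max c c') 0 with hn
  have hdeg : Divisor.degree (Finsupp.single v n) = n := by
    rw [Divisor.degree_single, h.deg_one v]; simp
  have e1 := hc (Finsupp.single v n) (by rw [hdeg]; exact le_trans (le_max_left _ _) (le_max_left _ _))
  have e2 := hc' (Finsupp.single v n) (by rw [hdeg]; exact le_trans (le_max_right _ _) (le_max_left _ _))
  rw [e1] at e2
  omega

/-- **ES-D-A3' (official).**  The residue field `k` is algebraically closed and the reduction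
field `F_k` satisfies helper58's hypotheses (`deg_one`, `HasPrincipalDivisors`, growth; use
`Fermat.Agent.H58.rrHyp_of_finite` + `place_deg_eq_one`).  -/
def RRModLStatement : Prop :=
  ∀ (N : ℕ) [NeZero N] (ℓ : ℕ) [Fact ℓ.Prime], ¬ ℓ ∣ N →
    ∀ (A : ValuationSubring (AlgebraicClosure ℚ)), A.LiesOverPrime ℓ →
      IsAlgClosed (IsLocalRing.ResidueField A) ∧
      Fermat.Agent.H58.RRHyp (IsLocalRing.ResidueField A)
        ↥(modularFunctionFieldFullC (IsLocalRing.ResidueField A) N)

/-- **ES-D-GENUS (official): good reduction in numerical form.**  `h` is an allowed hypothesis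
(S18 provides it); an unconditional proof is of course also welcome. -/
def GenusFFStatement : Prop :=
  ∀ (N : ℕ) [NeZero N] (ℓ : ℕ) [Fact ℓ.Prime], ¬ ℓ ∣ N →
    ∀ (A : ValuationSubring (AlgebraicClosure ℚ)), A.LiesOverPrime ℓ →
      ModularCurve.ReductionInputsModL A N →
      Fermat.Agent.H58.RRHyp (IsLocalRing.ResidueField A)
        ↥(modularFunctionFieldFullC (IsLocalRing.ResidueField A) N) →
      genusFF (AlgebraicClosure ℚ) ↥(modularFunctionFieldBar N) ≤
        genusFF (IsLocalRing.ResidueField A)
          ↥(modularFunctionFieldFullC (IsLocalRing.ResidueField A) N)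

/-- **ES-D-CORE (official).** -/
def S18CoreFFStatement : Prop :=
  ∀ (N : ℕ) [NeZero N] (ℓ : ℕ) [Fact ℓ.Prime], ¬ ℓ ∣ N →
    ∀ (A : ValuationSubring (AlgebraicClosure ℚ)), A.LiesOverPrime ℓ →
      ∀ (_h : ModularCurve.ReductionInputsModL A N),
        IsAlgClosed (IsLocalRing.ResidueField A) →
        Fermat.Agent.H58.RRHyp (IsLocalRing.ResidueField A)
          ↥(modularFunctionFieldFullC (IsLocalRing.ResidueField A) N) →
        genusFF (AlgebraicClosure ℚ) ↥(modularFunctionFieldBar N) ≤
          genusFF (IsLocalRing.ResidueField A)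
            ↥(modularFunctionFieldFullC (IsLocalRing.ResidueField A) N) →
        ∀ (m : ℕ), ¬ ℓ ∣ m → ∀ z : ModularCurve.JZero N, m • z = 0 →
          ModularCurve.reductionModL A N z = 0 → z = 0

/-- **Assembly of S18** (frozen shape) from the three official blocks. -/
theorem s18_of_ff (hk : RRModLStatement) (hg : GenusFFStatement) (hc : S18CoreFFStatement)
    (N : ℕ) [NeZero N] {ℓ : ℕ} [Fact ℓ.Prime] (hℓN : ¬ ℓ ∣ N)
    (A : ValuationSubring (AlgebraicClosure ℚ)) (hA : A.LiesOverPrime ℓ)
    (h : ModularCurve.ReductionInputsModL A N) (m : ℕ) (hm : ¬ ℓ ∣ m)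
    (z : ModularCurve.JZero N) (hmz : m • z = 0)
    (hz : ModularCurve.reductionModL A N z = 0) : z = 0 := by
  obtain ⟨hac, hrr⟩ := hk N ℓ hℓN A hA
  exact hc N ℓ hℓN A hA h hac hrr (hg N ℓ hℓN A hA h hrr) m hm z hmz hz

/-- the wave-1 core statement implies the official one -/
theorem s18CoreFF_of (hc : S18CoreStatement) : S18CoreFFStatement := by
  intro N _ ℓ _ hℓN A hA h hac hrr hg m hm z hmz hz
  have := hac
  have : Infinite (IsLocalRing.ResidueField A) := IsAlgClosed.instInfinite
  exact hc N ℓ hℓN A hA h _ _
    (riemannPackage_of_rrHyp (Fermat.Agent.H58.rrHyp_modularFunctionFieldBar N))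
    (riemannPackage_of_rrHyp hrr) hg m hm z hmz hz

end

end Fermat.Agent.H27.ESD
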