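import Fermat.Agent.H7.ESD.TameUncond
import Fermat.Agent.H17.ESD.TameT2
import Fermat.Agent.H1.ESD.T3Tame

/-!
# ES-D [T3]: the genus inequality at tame pairs, UNCONDITIONAL

Assembly of helper7's `genusFFTame_of_branch23` with the tame branch data of `t₂` (helper17) and
`t₃` (helper1).
-/

set_option autoImplicit false
set_option synthInstance.maxHeartbeats 400000

noncomputable section

namespace Fermat.Agent.H27.ESD

/-- the tame branch data at `ℓ = 3`, `2 ∣ N` and `ℓ = 2`, `3 ∣ N` -/
theorem tameBranch23 : Fermat.Agent.H7.ESD.TameBranch23Statement := by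
  intro N _ ℓ _ hℓN h A hA _ _
  rcases h with ⟨rfl, h2⟩ | ⟨rfl, h3⟩
  · exact Fermat.Agent.H17.ESD.tameBranchData_t2 N A h2 hℓN hA
  · exact Fermat.Agent.H1.ESD.tameBranchData_t3 N A hℓN h3 hA

/-- **[T3]** `GenusFFTameStatement`, unconditional. -/
theorem genusFFTame : GenusFFTameStatement :=
  Fermat.Agent.H7.ESD.genusFFTame_of_branch23 tameBranch23

end Fermat.Agent.H27.ESD
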